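import Fermat.Agent.S15.Dict.PF.Half

/-!
# S15 / Dict / PF : periodicity of G with respect to L'
-/

set_option autoImplicit false

namespace Fermat.Agent.S15.Dict.PF

open PeriodPair Filter Topology

private theorem GPer_wp'_add (L : PeriodPair) (z l : ℂ) (hl : l ∈ L.lattice) :
    ℘'[L] (z + l) = ℘'[L] z :=
  L.derivWeierstrassP_add_coe z ⟨l, hl⟩

theorem G_add_lattice (L : PeriodPair) (N : ℕ) (z₀ z l : ℂ) (hl : l ∈ L.lattice) :
    G L N z₀ (z + l) = G L N z₀ z := by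
  unfold G
  refine Finset.prod_congr rfl fun k _ => ?_
  rw [add_right_comm, GPer_wp'_add L _ l hl]

theorem G_add_z₀ {L L' : PeriodPair} {N : ℕ} {z₀ : ℂ} (C : IsCyc L L' N z₀) (z : ℂ) :
    G L N z₀ (z + z₀) = G L N z₀ z := by
  unfold G
  set f : ℕ → ℂ := fun k => ℘'[L] (z + k * z₀) with hf
  have h1 : ∀ k : ℕ, ℘'[L] (z + z₀ + k * z₀) = f (k + 1) := by
    intro k
    rw [hf]
    simp only
    congr 1
    push_cast
    ring
  have hN : f N = f 0 := by
    rw [hf]
    simp only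
    have hmem : ((N : ℕ) : ℂ) * z₀ ∈ L.lattice := by
      have := (C.ord (N : ℤ)).mpr dvd_rfl
      simpa using this
    rw [GPer_wp'_add L _ _ hmem]
    simp
  rw [Finset.prod_congr rfl fun k _ => h1 k]
  show ∏ k ∈ Finset.range N, f (k + 1) = ∏ k ∈ Finset.range N, f k
  cases N with
  | zero => simp
  | succ n => rw [Finset.prod_range_succ, Finset.prod_range_succ' f n, hN]

private theorem GPer_add_int {L L' : PeriodPair} {N : ℕ} {z₀ : ℂ} (C : IsCyc L L' N z₀) (k : ℤ) :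
    ∀ z : ℂ, G L N z₀ (z + k * z₀) = G L N z₀ z := by
  induction k using Int.induction_on with
  | zero =>
    intro z
    simp
  | succ i ih =>
    intro z
    have e : z + ((i : ℤ) + 1 : ℤ) * z₀ = z + (i : ℤ) * z₀ + z₀ := by
      push_cast
      ring
    rw [e, G_add_z₀ C, ih]
  | pred i ih =>
    intro z
    have e : z + (-(i : ℤ) : ℤ) * z₀ = z + (-(i : ℤ) - 1 : ℤ) * z₀ + z₀ := by
      push_cast
      ring
    rw [← G_add_z₀ C, ← e, ih]

theorem G_periodic {L L' : PeriodPair} {N : ℕ} {z₀ : ℂ} (C : IsCyc L L' N z₀) (z l : ℂ)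
    (hl : l ∈ L'.lattice) : G L N z₀ (z + l) = G L N z₀ z := by
  obtain ⟨k, hk⟩ := (C.mem_iff l).mp hl
  have e : z + l = z + k * z₀ + (l - k * z₀) := by ring
  rw [e, G_add_lattice L N z₀ _ _ hk, GPer_add_int C]

theorem T3_periodic (L : PeriodPair) (h₁ h₂ z l : ℂ) (hl : l ∈ L.lattice) :
    T3 L h₁ h₂ (z + l) = T3 L h₁ h₂ z := by
  unfold T3
  rw [add_right_comm z l h₁, add_right_comm z l h₂, add_right_comm z l (h₁ + h₂),
    GPer_wp'_add L _ l hl, GPer_wp'_add L _ l hl, GPer_wp'_add L _ l hl]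

end Fermat.Agent.S15.Dict.PF
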