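import Fermat.Agent.S15.Dict.PF.Defs

/-!
# S15 / Dict / PF : bookkeeping of half periods and of the lattice L' = L + ℤ z₀
-/

set_option autoImplicit false

namespace Fermat.Agent.S15.Dict.PF

open PeriodPair Filter Topology

/-- integer multiples of lattice points -/
theorem half_int_mul_mem (L : PeriodPair) (n : ℤ) {x : ℂ} (hx : x ∈ L.lattice) :
    (n : ℂ) * x ∈ L.lattice := by
  rw [← zsmul_eq_mul]
  exact L.lattice.smul_mem n hx

theorem half_two_mul_mem (L : PeriodPair) {x : ℂ} (hx : x ∈ L.lattice) :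
    2 * x ∈ L.lattice := by
  rw [two_mul]
  exact L.lattice.add_mem hx hx

/-- a point whose double has even coordinates is a lattice point -/
theorem half_mem_of_even (L : PeriodPair) {y : ℂ} {m n : ℤ}
    (h : (m : ℂ) * L.ω₁ + (n : ℂ) * L.ω₂ = 2 * y) (hm : m % 2 = 0) (hn : n % 2 = 0) :
    y ∈ L.lattice := by
  obtain ⟨m', rfl⟩ : ∃ m', m = 2 * m' := ⟨m / 2, by omega⟩
  obtain ⟨n', rfl⟩ : ∃ n', n = 2 * n' := ⟨n / 2, by omega⟩
  refine mem_lattice.mpr ⟨m', n', ?_⟩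
  have h2 : (2 : ℂ) ≠ 0 := two_ne_zero
  apply mul_left_cancel₀ h2
  rw [← h]
  push_cast
  ring

theorem isHalf_std (L : PeriodPair) : IsHalf L (L.ω₁ / 2) (L.ω₂ / 2) := by
  refine ⟨?_, ?_, L.ω₁_div_two_notMem_lattice, L.ω₂_div_two_notMem_lattice, ?_⟩
  · rw [mul_div_cancel₀ _ (two_ne_zero)]
    exact L.ω₁_mem_lattice
  · rw [mul_div_cancel₀ _ (two_ne_zero)]
    exact L.ω₂_mem_lattice
  · have := (L.mul_ω₁_add_mul_ω₂_mem_lattice (α := 1 / 2) (β := 1 / 2)).not.mpr (by norm_num)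
    have e : L.ω₁ / 2 + L.ω₂ / 2 = ((1 / 2 : ℚ) : ℂ) * L.ω₁ + ((1 / 2 : ℚ) : ℂ) * L.ω₂ := by
      push_cast
      ring
    rw [e]
    exact this

theorem IsHalf.symm {L : PeriodPair} {h₁ h₂ : ℂ} (H : IsHalf L h₁ h₂) : IsHalf L h₂ h₁ :=
  ⟨H.two₂, H.two₁, H.not₂, H.not₁, by rw [add_comm]; exact H.not₃⟩

theorem IsHalf.rot {L : PeriodPair} {h₁ h₂ : ℂ} (H : IsHalf L h₁ h₂) :
    IsHalf L (h₁ + h₂) h₁ := by
  refine ⟨?_, H.two₁, H.not₃, H.not₁, fun h => H.not₂ ?_⟩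
  · rw [mul_add]
    exact L.lattice.add_mem H.two₁ H.two₂
  · have := L.lattice.sub_mem h H.two₁
    have e : h₁ + h₂ + h₁ - 2 * h₁ = h₂ := by ring
    rwa [e] at this

theorem IsCyc.le {L L' : PeriodPair} {N : ℕ} {z₀ : ℂ} (C : IsCyc L L' N z₀) :
    L.lattice ≤ L'.lattice := by
  intro z hz
  exact (C.mem_iff z).mpr ⟨0, by simpa using hz⟩

theorem IsCyc.mul_mem {L L' : PeriodPair} {N : ℕ} {z₀ : ℂ} (C : IsCyc L L' N z₀) (k : ℤ) :
    (k : ℂ) * z₀ ∈ L'.lattice :=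
  (C.mem_iff _).mpr ⟨k, by rw [sub_self]; exact L.lattice.zero_mem⟩

/-- a half period of `L` does not become a period of `L'` (`N` odd) -/
theorem half_notMem_of_isCyc {L L' : PeriodPair} {N : ℕ} {z₀ h : ℂ} (hN : Odd N)
    (C : IsCyc L L' N z₀) (h2 : 2 * h ∈ L.lattice) (hn : h ∉ L.lattice) : h ∉ L'.lattice := by
  intro hh
  obtain ⟨k, hk⟩ := (C.mem_iff h).mp hh
  obtain ⟨m, rfl⟩ := hN
  apply hn
  have h1 : (((2 * m + 1 : ℕ) : ℤ) : ℂ) * (h - k * z₀) ∈ L.lattice := half_int_mul_mem L _ hk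
  have h3 : ((((2 * m + 1 : ℕ) : ℤ) * k : ℤ) : ℂ) * z₀ ∈ L.lattice :=
    (C.ord _).mpr (Dvd.intro _ rfl)
  have h4 : ((m : ℤ) : ℂ) * (2 * h) ∈ L.lattice := half_int_mul_mem L _ h2
  have := L.lattice.sub_mem (L.lattice.add_mem h1 h3) h4
  have e : (((2 * m + 1 : ℕ) : ℤ) : ℂ) * (h - k * z₀) + ((((2 * m + 1 : ℕ) : ℤ) * k : ℤ) : ℂ) * z₀ -
      ((m : ℤ) : ℂ) * (2 * h) = h := by
    push_cast
    ring
  rwa [e] at this

theorem IsHalf.of_isCyc {L L' : PeriodPair} {N : ℕ} {z₀ h₁ h₂ : ℂ} (hN : Odd N)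
    (C : IsCyc L L' N z₀) (H : IsHalf L h₁ h₂) : IsHalf L' h₁ h₂ :=
  ⟨C.le H.two₁, C.le H.two₂, half_notMem_of_isCyc hN C H.two₁ H.not₁,
    half_notMem_of_isCyc hN C H.two₂ H.not₂, half_notMem_of_isCyc hN C H.rot.two₁ H.not₃⟩

/-- every element of `L'` is congruent modulo `L` to `- k z₀` for a unique `k < N` -/
theorem IsCyc.exists_range {L L' : PeriodPair} {N : ℕ} {z₀ : ℂ} (hN : 0 < N)
    (C : IsCyc L L' N z₀) (x : ℂ) (hx : x ∈ L'.lattice) :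
    ∃ k ∈ Finset.range N, x + (k : ℂ) * z₀ ∈ L.lattice ∧
      ∀ k' ∈ Finset.range N, k' ≠ k → x + (k' : ℂ) * z₀ ∉ L.lattice := by
  obtain ⟨j, hj⟩ := (C.mem_iff x).mp hx
  have hN' : (0 : ℤ) < N := by exact_mod_cast hN
  have h0 : 0 ≤ (-j) % (N : ℤ) := Int.emod_nonneg _ hN'.ne'
  have h1 : (-j) % (N : ℤ) < N := Int.emod_lt_of_pos _ hN'
  obtain ⟨k, hk⟩ := Int.eq_ofNat_of_zero_le h0
  have hkN : k < N := by
    have : (k : ℤ) < N := hk ▸ h1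
    exact_mod_cast this
  have hmem : x + (k : ℂ) * z₀ ∈ L.lattice := by
    have hd : (N : ℤ) ∣ (k : ℤ) + j := by
      rw [← hk]
      have := Int.emod_emod_of_dvd (-j) (dvd_refl (N : ℤ))
      have h2 : ((-j) % (N : ℤ) + j) % (N : ℤ) = 0 := by
        rw [Int.add_emod, Int.emod_emod_of_dvd _ (dvd_refl _), ← Int.add_emod]
        simp
      exact Int.dvd_of_emod_eq_zero h2
    have h3 := (C.ord _).mpr hd
    have := L.lattice.add_mem hj h3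
    have e : x - (j : ℂ) * z₀ + (((k : ℤ) + j : ℤ) : ℂ) * z₀ = x + (k : ℂ) * z₀ := by
      push_cast
      ring
    rwa [e] at this
  refine ⟨k, Finset.mem_range.mpr hkN, hmem, fun k' hk' hne hmem' => hne ?_⟩
  have hk'N : k' < N := Finset.mem_range.mp hk'
  have h4 := L.lattice.sub_mem hmem' hmem
  have e : x + (k' : ℂ) * z₀ - (x + (k : ℂ) * z₀) = (((k' : ℤ) - (k : ℤ) : ℤ) : ℂ) * z₀ := by
    push_cast
    ring
  rw [e] at h4
  obtain ⟨c, hc⟩ := (C.ord _).mp h4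
  have hc0 : c = 0 := by
    by_contra hc0
    have h5 : (N : ℤ) ≤ |(N : ℤ) * c| := by
      rw [abs_mul, abs_of_pos hN']
      have : 1 ≤ |c| := Int.one_le_abs hc0
      nlinarith
    rw [← hc] at h5
    have h6 : |(k' : ℤ) - (k : ℤ)| < N := by
      rw [abs_lt]
      constructor <;> omega
    omega
  rw [hc0, mul_zero] at hc
  omega

theorem IsCyc.add_mul_notMem {L L' : PeriodPair} {N : ℕ} {z₀ : ℂ}
    (C : IsCyc L L' N z₀) (x : ℂ) (hx : x ∉ L'.lattice) (k : ℕ) :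
    x + (k : ℂ) * z₀ ∉ L.lattice := by
  intro h
  refine hx ((C.mem_iff x).mpr ⟨-(k : ℤ), ?_⟩)
  have e : x - ((-(k : ℤ) : ℤ) : ℂ) * z₀ = x + (k : ℂ) * z₀ := by
    push_cast
    ring
  rwa [e]

theorem exists_generic (L : PeriodPair) : ∃ z : ℂ, 2 * z ∉ L.lattice := by
  refine ⟨L.ω₁ / 3, ?_⟩
  have := (L.mul_ω₁_add_mul_ω₂_mem_lattice (α := 2 / 3) (β := 0)).not.mpr (by norm_num)
  have e : 2 * (L.ω₁ / 3) = ((2 / 3 : ℚ) : ℂ) * L.ω₁ + ((0 : ℚ) : ℂ) * L.ω₂ := by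
    push_cast
    ring
  rw [e]
  exact this

/-- consequences of `2 z ∉ L` -/
theorem notMem_of_two_mul (L : PeriodPair) {z : ℂ} (hz : 2 * z ∉ L.lattice) :
    z ∉ L.lattice :=
  fun h => hz (half_two_mul_mem L h)

theorem two_mul_add_notMem (L : PeriodPair) {z h : ℂ} (hz : 2 * z ∉ L.lattice)
    (hh : 2 * h ∈ L.lattice) : 2 * (z + h) ∉ L.lattice := by
  intro h1
  apply hz
  have := L.lattice.sub_mem h1 hh
  have e : 2 * (z + h) - 2 * h = 2 * z := by ring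
  rwa [e] at this

theorem add_notMem_of_two_mul (L : PeriodPair) {z h : ℂ} (hz : 2 * z ∉ L.lattice)
    (hh : 2 * h ∈ L.lattice) : z + h ∉ L.lattice :=
  notMem_of_two_mul L (two_mul_add_notMem L hz hh)

/-- a point `x` with `2 x ∈ L`, `x ∉ L` is congruent modulo `L` to one of the three half
periods -/
theorem exists_half_of_two_mul_mem {L : PeriodPair} {h₁ h₂ : ℂ}
    (H : IsHalf L h₁ h₂) (x : ℂ) (hx : x ∉ L.lattice) (hx2 : 2 * x ∈ L.lattice) :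
    x + h₁ ∈ L.lattice ∨ x + h₂ ∈ L.lattice ∨ x + (h₁ + h₂) ∈ L.lattice := by
  obtain ⟨a, b, hab⟩ := mem_lattice.mp hx2
  obtain ⟨c, d, hcd⟩ := mem_lattice.mp H.two₁
  obtain ⟨e, f, hef⟩ := mem_lattice.mp H.two₂
  have n0 : ¬ (a % 2 = 0 ∧ b % 2 = 0) := fun h => hx (half_mem_of_even L hab h.1 h.2)
  have n1 : ¬ (c % 2 = 0 ∧ d % 2 = 0) := fun h => H.not₁ (half_mem_of_even L hcd h.1 h.2)
  have n2 : ¬ (e % 2 = 0 ∧ f % 2 = 0) := fun h => H.not₂ (half_mem_of_even L hef h.1 h.2)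
  have n3 : ¬ ((c + e) % 2 = 0 ∧ (d + f) % 2 = 0) := fun h =>
    H.not₃ (half_mem_of_even L (m := c + e) (n := d + f)
      (by push_cast; rw [mul_add, ← hcd, ← hef]; ring) h.1 h.2)
  have key : ((a + c) % 2 = 0 ∧ (b + d) % 2 = 0) ∨ ((a + e) % 2 = 0 ∧ (b + f) % 2 = 0) ∨
      ((a + (c + e)) % 2 = 0 ∧ (b + (d + f)) % 2 = 0) := by omega
  rcases key with h | h | h
  · exact Or.inl (half_mem_of_even L (m := a + c) (n := b + d)
      (by push_cast; rw [mul_add, ← hab, ← hcd]; ring) h.1 h.2)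
  · exact Or.inr (Or.inl (half_mem_of_even L (m := a + e) (n := b + f)
      (by push_cast; rw [mul_add, ← hab, ← hef]; ring) h.1 h.2))
  · exact Or.inr (Or.inr (half_mem_of_even L (m := a + (c + e)) (n := b + (d + f))
      (by push_cast; rw [mul_add, mul_add, ← hab, ← hcd, ← hef]; ring) h.1 h.2))

end Fermat.Agent.S15.Dict.PF
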