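import Fermat.Agent.S15.Dict.PF.Ord
import Fermat.Agent.S15.Dict.PF.Half

/-!
# S15 / Dict / PF : lower bounds for the orders of G and T3
-/

set_option autoImplicit false

namespace Fermat.Agent.S15.Dict.PF

open PeriodPair Filter Topology

/-- a translate of `℘'` is meromorphic -/
private theorem ordGT_mero (L : PeriodPair) (a : ℂ) : Meromorphic (fun z => ℘'[L] (z + a)) :=
  Meromorphic.meromorphic_fun_comp_add_const_iff_meromorphic.mpr L.meromorphic_derivWeierstrassP

/-- a translate of `℘'` is analytic outside the translated lattice -/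
private theorem ordGT_analytic (L : PeriodPair) (a x : ℂ) (h : x + a ∉ L.lattice) :
    AnalyticAt ℂ (fun z => ℘'[L] (z + a)) x := by
  have h1 : AnalyticAt ℂ ℘'[L] (x + a) := L.analyticOnNhd_derivWeierstrassP _ h
  have h2 : AnalyticAt ℂ (fun z : ℂ => z + a) x := by fun_prop
  exact AnalyticAt.comp (g := ℘'[L]) (f := fun z : ℂ => z + a) h1 h2

private theorem ordGT_G_eq (L : PeriodPair) (N : ℕ) (z₀ : ℂ) :
    G L N z₀ = fun z => ∏ k ∈ Finset.range N, ℘'[L] (z + k * z₀) := rfl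

private theorem ordGT_T3_eq (L : PeriodPair) (h₁ h₂ : ℂ) :
    T3 L h₁ h₂ = fun z => ℘'[L] (z + h₁) * ℘'[L] (z + h₂) * ℘'[L] (z + (h₁ + h₂)) := rfl

/-- the order of `G` is the sum of the orders of the factors -/
private theorem ordGT_order_G (L : PeriodPair) (N : ℕ) (z₀ x : ℂ) :
    meromorphicOrderAt (G L N z₀) x =
      ∑ k ∈ Finset.range N, meromorphicOrderAt (fun z => ℘'[L] (z + k * z₀)) x := by
  rw [ordGT_G_eq]
  exact meromorphicOrderAt_fun_prod (f := fun (k : ℕ) (z : ℂ) => ℘'[L] (z + k * z₀))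
    (fun k _ => ordGT_mero L _ x)

/-- the order of `T3` is the sum of the orders of the factors -/
private theorem ordGT_order_T3 (L : PeriodPair) (h₁ h₂ x : ℂ) :
    meromorphicOrderAt (T3 L h₁ h₂) x =
      meromorphicOrderAt (fun z => ℘'[L] (z + h₁)) x +
        meromorphicOrderAt (fun z => ℘'[L] (z + h₂)) x +
        meromorphicOrderAt (fun z => ℘'[L] (z + (h₁ + h₂))) x := by
  rw [ordGT_T3_eq]
  rw [fun_meromorphicOrderAt_mul ((ordGT_mero L h₁ x).fun_mul (ordGT_mero L h₂ x))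
    (ordGT_mero L (h₁ + h₂) x),
    fun_meromorphicOrderAt_mul (ordGT_mero L h₁ x) (ordGT_mero L h₂ x)]

/-- one distinguished term bounded below by `c`, all the others nonnegative -/
private theorem ordGT_sum_ge {s : Finset ℕ} {f : ℕ → WithTop ℤ} {c : WithTop ℤ} {k : ℕ}
    (hk : k ∈ s) (hc : c ≤ f k) (h0 : ∀ k' ∈ s, k' ≠ k → 0 ≤ f k') : c ≤ ∑ i ∈ s, f i := by
  classical
  rw [← Finset.add_sum_erase s f hk]
  have h1 : 0 ≤ ∑ i ∈ s.erase k, f i :=
    Finset.sum_nonneg fun i hi => h0 i (Finset.mem_of_mem_erase hi) (Finset.ne_of_mem_erase hi)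
  calc c = c + 0 := (add_zero c).symm
    _ ≤ f k + ∑ i ∈ s.erase k, f i := add_le_add hc h1

theorem meromorphic_G (L : PeriodPair) (N : ℕ) (z₀ : ℂ) : Meromorphic (G L N z₀) := by
  rw [ordGT_G_eq]
  exact Meromorphic.fun_prod (F := fun (k : ℕ) (z : ℂ) => ℘'[L] (z + k * z₀))
    (fun k _ => ordGT_mero L _)

theorem meromorphic_T3 (L : PeriodPair) (h₁ h₂ : ℂ) : Meromorphic (T3 L h₁ h₂) := by
  rw [ordGT_T3_eq]
  exact ((ordGT_mero L h₁).fun_mul (ordGT_mero L h₂)).fun_mul (ordGT_mero L (h₁ + h₂))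

/-- `G` has at most a triple pole at the points of `L'`. -/
theorem order_G_ge {L L' : PeriodPair} {N : ℕ} {z₀ : ℂ} (hN : 0 < N) (C : IsCyc L L' N z₀)
    (x : ℂ) (hx : x ∈ L'.lattice) : (-3 : WithTop ℤ) ≤ meromorphicOrderAt (G L N z₀) x := by
  obtain ⟨k, hk, -, hk'⟩ := C.exists_range hN x hx
  rw [ordGT_order_G]
  exact ordGT_sum_ge hk (order_deriv_ge L _ x)
    (fun k' h1 h2 => order_deriv_nonneg L _ x (hk' k' h1 h2))

/-- `G` is analytic outside `L'`. -/
theorem analyticAt_G {L L' : PeriodPair} {N : ℕ} {z₀ : ℂ} (C : IsCyc L L' N z₀)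
    (x : ℂ) (hx : x ∉ L'.lattice) : AnalyticAt ℂ (G L N z₀) x := by
  rw [ordGT_G_eq]
  exact Finset.analyticAt_fun_prod (f := fun (k : ℕ) (z : ℂ) => ℘'[L] (z + k * z₀)) _
    (fun k _ => ordGT_analytic L _ x (C.add_mul_notMem x hx k))

/-- `G` vanishes at the half periods of `L'` of the form `x ∈ - h + L'`, `h` a half period
of `L`. -/
theorem order_G_pos {L L' : PeriodPair} {N : ℕ} {z₀ : ℂ} (hN : 0 < N) (C : IsCyc L L' N z₀)
    (x h : ℂ) (hx : x ∉ L'.lattice) (hh : 2 * h ∈ L.lattice) (hxh : x + h ∈ L'.lattice) :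
    1 ≤ meromorphicOrderAt (G L N z₀) x := by
  obtain ⟨k, hk, hmem, -⟩ := C.exists_range hN (x + h) hxh
  rw [ordGT_order_G]
  refine ordGT_sum_ge hk (order_deriv_pos L _ x (C.add_mul_notMem x hx k) ?_)
    (fun k' _ _ => order_deriv_nonneg L _ x (C.add_mul_notMem x hx k'))
  have h1 := L.lattice.sub_mem (half_two_mul_mem L hmem) hh
  have e : 2 * (x + h + (k : ℂ) * z₀) - 2 * h = 2 * (x + (k : ℂ) * z₀) := by ring
  rwa [e] at h1

/-- `T3` has a triple zero at the points of the lattice. -/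
theorem order_T3_lattice (L : PeriodPair) {h₁ h₂ : ℂ} (H : IsHalf L h₁ h₂) (x : ℂ)
    (hx : x ∈ L.lattice) : 3 ≤ meromorphicOrderAt (T3 L h₁ h₂) x := by
  have key : ∀ h : ℂ, 2 * h ∈ L.lattice → h ∉ L.lattice →
      1 ≤ meromorphicOrderAt (fun z => ℘'[L] (z + h)) x := by
    intro h h2 hn
    refine order_deriv_pos L h x (fun hm => hn ?_) ?_
    · have := L.lattice.sub_mem hm hx
      rwa [add_sub_cancel_left] at this
    · rw [mul_add]
      exact L.lattice.add_mem (half_two_mul_mem L hx) h2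
  rw [ordGT_order_T3]
  have e : (3 : WithTop ℤ) = 1 + 1 + 1 := by norm_num
  rw [e]
  exact add_le_add (add_le_add (key _ H.two₁ H.not₁) (key _ H.two₂ H.not₂))
    (key _ H.rot.two₁ H.not₃)

/-- two half periods in distinct classes -/
private theorem ordGT_other (L : PeriodPair) {x a b : ℂ} (hx2 : 2 * x ∈ L.lattice)
    (ha : x + a ∈ L.lattice) (hb2 : 2 * b ∈ L.lattice) (hab : a + b ∉ L.lattice) :
    1 ≤ meromorphicOrderAt (fun z => ℘'[L] (z + b)) x := by
  refine order_deriv_pos L b x (fun hm => hab ?_) ?_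
  · have := L.lattice.sub_mem (L.lattice.add_mem ha hm) hx2
    have e : x + a + (x + b) - 2 * x = a + b := by ring
    rwa [e] at this
  · rw [mul_add]
    exact L.lattice.add_mem hx2 hb2

/-- `T3` has at most a simple pole at the half periods. -/
theorem order_T3_half (L : PeriodPair) {h₁ h₂ : ℂ} (H : IsHalf L h₁ h₂) (x : ℂ)
    (hx : x ∉ L.lattice) (hx2 : 2 * x ∈ L.lattice) :
    (-1 : WithTop ℤ) ≤ meromorphicOrderAt (T3 L h₁ h₂) x := by
  rw [ordGT_order_T3]
  have n13 : h₁ + (h₁ + h₂) ∉ L.lattice := by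
    intro h
    apply H.not₂
    have := L.lattice.sub_mem h H.two₁
    have e : h₁ + (h₁ + h₂) - 2 * h₁ = h₂ := by ring
    rwa [e] at this
  have n23 : h₂ + (h₁ + h₂) ∉ L.lattice := by
    intro h
    apply H.not₁
    have := L.lattice.sub_mem h H.two₂
    have e : h₂ + (h₁ + h₂) - 2 * h₂ = h₁ := by ring
    rwa [e] at this
  have n21 : h₂ + h₁ ∉ L.lattice := by rw [add_comm]; exact H.not₃
  have n31 : (h₁ + h₂) + h₁ ∉ L.lattice := by rw [add_comm]; exact n13
  have n32 : (h₁ + h₂) + h₂ ∉ L.lattice := by rw [add_comm]; exact n23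
  rcases exists_half_of_two_mul_mem H x hx hx2 with h | h | h
  · have e : (-1 : WithTop ℤ) = -3 + 1 + 1 := rfl
    rw [e]
    exact add_le_add (add_le_add (order_deriv_ge L _ x) (ordGT_other L hx2 h H.two₂ H.not₃))
      (ordGT_other L hx2 h H.rot.two₁ n13)
  · have e : (-1 : WithTop ℤ) = 1 + -3 + 1 := rfl
    rw [e]
    exact add_le_add (add_le_add (ordGT_other L hx2 h H.two₁ n21) (order_deriv_ge L _ x))
      (ordGT_other L hx2 h H.rot.two₁ n23)
  · have e : (-1 : WithTop ℤ) = 1 + 1 + -3 := rfl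
    rw [e]
    exact add_le_add (add_le_add (ordGT_other L hx2 h H.two₁ n31) (ordGT_other L hx2 h H.two₂ n32))
      (order_deriv_ge L _ x)

/-- `T3` is analytic outside the half lattice. -/
theorem analyticAt_T3 (L : PeriodPair) {h₁ h₂ : ℂ} (H : IsHalf L h₁ h₂) (x : ℂ)
    (hx2 : 2 * x ∉ L.lattice) : AnalyticAt ℂ (T3 L h₁ h₂) x := by
  rw [ordGT_T3_eq]
  exact ((ordGT_analytic L _ x (add_notMem_of_two_mul L hx2 H.two₁)).fun_mul
    (ordGT_analytic L _ x (add_notMem_of_two_mul L hx2 H.two₂))).fun_mul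
    (ordGT_analytic L _ x (add_notMem_of_two_mul L hx2 H.rot.two₁))

end Fermat.Agent.S15.Dict.PF
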