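import Fermat.Agent.S15.Dict.PF.LV
import Fermat.Agent.S15.Dict.PF.GPer
import Fermat.Agent.S15.Dict.PF.OrdGT

/-!
# S15 / Dict / PF : the mixed product G * T3 is constant
-/

set_option autoImplicit false

namespace Fermat.Agent.S15.Dict.PF

open PeriodPair Filter Topology

theorem K_const {L L' : PeriodPair} {N : ℕ} {z₀ h₁ h₂ : ℂ} (hN : Odd N)
    (C : IsCyc L L' N z₀) (H : IsHalf L h₁ h₂) :
    ∃ κ : ℂ, ∀ z, 2 * z ∉ L'.lattice → G L N z₀ z * T3 L' h₁ h₂ z = κ := by
  have H' : IsHalf L' h₁ h₂ := H.of_isCyc hN C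
  have hNpos : 0 < N := hN.pos
  have hmG := meromorphic_G L N z₀
  have hmT := meromorphic_T3 L' h₁ h₂
  have han : ∀ x, 2 * x ∉ L'.lattice → AnalyticAt ℂ (G L N z₀ * T3 L' h₁ h₂) x := fun x hx2 =>
    (analyticAt_G C x (notMem_of_two_mul L' hx2)).mul (analyticAt_T3 L' H' x hx2)
  have hper : ∀ z : ℂ, ∀ l ∈ L'.lattice,
      (G L N z₀ * T3 L' h₁ h₂) (z + l) = (G L N z₀ * T3 L' h₁ h₂) z := by
    intro z l hl
    rw [Pi.mul_apply, Pi.mul_apply, G_periodic C z l hl, T3_periodic L' h₁ h₂ z l hl]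
  have hord : ∀ x, 0 ≤ meromorphicOrderAt (G L N z₀ * T3 L' h₁ h₂) x := by
    intro x
    by_cases hx2 : 2 * x ∈ L'.lattice
    · rw [meromorphicOrderAt_mul (hmG x) (hmT x)]
      by_cases hx : x ∈ L'.lattice
      · have h1 := order_G_ge hNpos C x hx
        have h2 := order_T3_lattice L' H' x hx
        calc (0 : WithTop ℤ) = (-3 : WithTop ℤ) + 3 := by rfl
          _ ≤ _ := add_le_add h1 h2
      · have h2 := order_T3_half L' H' x hx hx2
        have h1 : 1 ≤ meromorphicOrderAt (G L N z₀) x := by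
          rcases exists_half_of_two_mul_mem H' x hx hx2 with h | h | h
          · exact order_G_pos hNpos C x h₁ hx H.two₁ h
          · exact order_G_pos hNpos C x h₂ hx H.two₂ h
          · refine order_G_pos hNpos C x (h₁ + h₂) hx ?_ h
            rw [mul_add]
            exact add_mem H.two₁ H.two₂
        calc (0 : WithTop ℤ) = 1 + (-1 : WithTop ℤ) := by rfl
          _ ≤ _ := add_le_add h1 h2
    · exact (han x hx2).meromorphicOrderAt_nonneg
  obtain ⟨κ, hκ⟩ := liouville L' (G L N z₀ * T3 L' h₁ h₂) (hmG.mul hmT) hper hord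
  exact ⟨κ, fun z hz => hκ z (han z hz).continuousAt⟩

end Fermat.Agent.S15.Dict.PF
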