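import Fermat.Agent.S15.Dict.PF.Half

/-!
# S15 / Dict / PF : the value of the constant
-/

set_option autoImplicit false

namespace Fermat.Agent.S15.Dict.PF

open PeriodPair Filter Topology

theorem tendsto_cube_mul_deriv (L : PeriodPair) :
    Tendsto (fun z => z ^ 3 * ℘'[L] z) (𝓝[≠] 0) (𝓝 (-2)) := by
  have hc : ContinuousAt (fun z => z ^ 3 * ℘'[L - (0 : ℂ)] z - 2) 0 :=
    ((continuousAt_id.pow 3).mul (L.analyticAt_derivWeierstrassPExcept 0).continuousAt).sub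
      continuousAt_const
  have h0 : Tendsto (fun z => z ^ 3 * ℘'[L - (0 : ℂ)] z - 2) (𝓝[≠] 0) (𝓝 (-2)) := by
    have := hc.tendsto.mono_left (nhdsWithin_le_nhds (s := {0}ᶜ))
    simpa using this
  refine h0.congr' ?_
  filter_upwards [self_mem_nhdsWithin] with z hz
  have hz0 : z ≠ 0 := hz
  have := L.derivWeierstrassPExcept_sub 0 z
  simp only [ZeroMemClass.coe_zero, sub_zero] at this
  rw [← this]
  field_simp

theorem eventually_two_mul_notMem (L : PeriodPair) :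
    ∀ᶠ z in 𝓝[≠] (0 : ℂ), 2 * z ∉ L.lattice := by
  have h1 : ((L.lattice : Set ℂ) \ {(0 : ℂ)})ᶜ ∈ 𝓝 ((2 : ℂ) * 0) := by
    rw [mul_zero]
    exact L.compl_lattice_sdiff_singleton_mem_nhds 0
  have hcont : ContinuousAt (fun z : ℂ => 2 * z) 0 := continuousAt_const.mul continuousAt_id
  have h2 : ∀ᶠ z in 𝓝 (0 : ℂ), 2 * z ∈ ((L.lattice : Set ℂ) \ {(0 : ℂ)})ᶜ :=
    hcont.eventually_mem h1
  filter_upwards [h2.filter_mono nhdsWithin_le_nhds, self_mem_nhdsWithin] with z hz hz0 hmem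
  have hz0' : z ≠ 0 := hz0
  exact hz ⟨hmem, by simpa using hz0'⟩

theorem kappa_eq {L L' : PeriodPair} {N : ℕ} {z₀ : ℂ} (hN : 0 < N)
    (C : IsCyc L L' N z₀) (κ d : ℂ)
    (h : ∀ z, 2 * z ∉ L'.lattice → κ * ℘'[L'] z = d * G L N z₀ z) :
    κ = d * ∏ k ∈ Finset.Ico 1 N, ℘'[L] (k * z₀) := by
  -- the regular factor
  have hreg : Tendsto (fun z => ∏ k ∈ Finset.Ico 1 N, ℘'[L] (z + k * z₀)) (𝓝[≠] 0)
      (𝓝 (∏ k ∈ Finset.Ico 1 N, ℘'[L] (k * z₀))) := by
    refine tendsto_finsetProd _ fun k hk => ?_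
    have hk' := Finset.mem_Ico.mp hk
    have hnot : (k : ℂ) * z₀ ∉ L.lattice := by
      intro hmem
      have h1 : ((k : ℤ) : ℂ) * z₀ ∈ L.lattice := by simpa using hmem
      have h2 := (C.ord k).mp h1
      have h3 : N ∣ k := Int.natCast_dvd_natCast.mp h2
      have := Nat.le_of_dvd (by omega) h3
      omega
    have hca : ContinuousAt ℘'[L] ((0 : ℂ) + k * z₀) := by
      rw [zero_add]
      exact (L.analyticOnNhd_derivWeierstrassP _ hnot).continuousAt
    have hcomp : ContinuousAt (fun z : ℂ => ℘'[L] (z + k * z₀)) 0 :=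
      ContinuousAt.comp (f := fun z : ℂ => z + k * z₀) hca
        (continuousAt_id.add continuousAt_const)
    have := hcomp.tendsto.mono_left (nhdsWithin_le_nhds (s := {0}ᶜ))
    simpa using this
  have hL := ((tendsto_cube_mul_deriv L').const_mul κ)
  have hR := (((tendsto_cube_mul_deriv L).mul hreg).const_mul d)
  have hev : (fun z => κ * (z ^ 3 * ℘'[L'] z)) =ᶠ[𝓝[≠] 0]
      fun z => d * (z ^ 3 * ℘'[L] z * ∏ k ∈ Finset.Ico 1 N, ℘'[L] (z + k * z₀)) := by
    filter_upwards [eventually_two_mul_notMem L'] with z hz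
    have h1 := h z hz
    have h2 : G L N z₀ z = ℘'[L] z * ∏ k ∈ Finset.Ico 1 N, ℘'[L] (z + k * z₀) := by
      rw [G, Finset.range_eq_Ico, Finset.prod_eq_prod_Ico_succ_bot hN]
      simp
    calc κ * (z ^ 3 * ℘'[L'] z) = z ^ 3 * (κ * ℘'[L'] z) := by ring
      _ = z ^ 3 * (d * (℘'[L] z * ∏ k ∈ Finset.Ico 1 N, ℘'[L] (z + k * z₀))) := by rw [h1, h2]
      _ = _ := by ring
  have huniq := tendsto_nhds_unique (hL.congr' hev) hR
  have h2 : (-2 : ℂ) ≠ 0 := by norm_num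
  apply mul_right_cancel₀ h2
  rw [huniq]
  ring

end Fermat.Agent.S15.Dict.PF
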