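import Fermat.Agent.S15.Dict.PF.FourProd
import Fermat.Agent.S15.Dict.PF.KConst
import Fermat.Agent.S15.Dict.PF.Lim

/-!
# S15 / Dict / PF : the product formula (assembly)
-/

set_option autoImplicit false

namespace Fermat.Agent.S15.Dict.PF

open PeriodPair Filter Topology

theorem prod_formula_of_isCyc {L L' : PeriodPair} {N : ℕ} {z₀ : ℂ} (hN : Odd N)
    (C : IsCyc L L' N z₀) :
    disc L' * ∏ k ∈ Finset.Ico 1 N, ℘'[L] (k * z₀) ^ 4 = disc L ^ N := by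
  have H : IsHalf L (L.ω₁ / 2) (L.ω₂ / 2) := isHalf_std L
  have H' : IsHalf L' (L.ω₁ / 2) (L.ω₂ / 2) := H.of_isCyc hN C
  set h₁ := L.ω₁ / 2
  set h₂ := L.ω₂ / 2
  obtain ⟨κ, hκ⟩ := K_const hN C H
  -- the value of the constant
  have hκ' : κ = disc L' * ∏ k ∈ Finset.Ico 1 N, ℘'[L] (k * z₀) := by
    refine kappa_eq hN.pos C κ (disc L') fun z hz => ?_
    rw [← hκ z hz, ← four_prod L' H' z hz]
    ring
  -- the fourth power of the constant
  obtain ⟨z, hz⟩ := exists_generic L'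
  have h3 : 2 * (h₁ + h₂) ∈ L'.lattice := by
    have := add_mem H'.two₁ H'.two₂
    rwa [← mul_add] at this
  have e0 := hκ z hz
  have e1 := hκ (z + h₁) (two_mul_add_notMem L' hz H'.two₁)
  have e2 := hκ (z + h₂) (two_mul_add_notMem L' hz H'.two₂)
  have e3 := hκ (z + (h₁ + h₂)) (two_mul_add_notMem L' hz h3)
  have hG := G_four C H z hz
  have hT := T3_four L' H' z hz
  have h4 : κ ^ 4 = disc L ^ N * disc L' ^ 3 := by
    rw [← hG, ← hT]
    calc κ ^ 4 = κ * κ * κ * κ := by ring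
      _ = (G L N z₀ z * T3 L' h₁ h₂ z) * (G L N z₀ (z + h₁) * T3 L' h₁ h₂ (z + h₁)) *
          (G L N z₀ (z + h₂) * T3 L' h₁ h₂ (z + h₂)) *
          (G L N z₀ (z + (h₁ + h₂)) * T3 L' h₁ h₂ (z + (h₁ + h₂))) := by
            rw [e0, e1, e2, e3]
      _ = _ := by ring
  have hd : disc L' ^ 3 ≠ 0 := pow_ne_zero _ (disc_ne_zero L')
  rw [Finset.prod_pow]
  apply mul_right_cancel₀ hd
  rw [← h4, hκ']
  ring

/-- **Product formula.**  `L' = L + ℤ z₀`, `z₀` of exact odd order `N` modulo `L`. -/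
theorem prod_formula (L L' : PeriodPair) (N : ℕ) (hN : Odd N) (z₀ : ℂ)
    (hL' : ∀ z : ℂ, z ∈ L'.lattice ↔ ∃ k : ℤ, z - k * z₀ ∈ L.lattice)
    (hord : ∀ k : ℤ, (k : ℂ) * z₀ ∈ L.lattice ↔ (N : ℤ) ∣ k) :
    disc L' * ∏ k ∈ Finset.Ico 1 N, ℘'[L] (k * z₀) ^ 4 = disc L ^ N :=
  prod_formula_of_isCyc hN ⟨hL', hord⟩

end Fermat.Agent.S15.Dict.PF
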