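import Fermat.Agent.S15.Dict.PF.Distinct

/-!
# S15 / Dict / PF : the cubic and the discriminant
-/

set_option autoImplicit false

namespace Fermat.Agent.S15.Dict.PF

open PeriodPair Filter Topology

/-- a half period gives a root of the cubic -/
private theorem cubic_root (L : PeriodPair) {h : ℂ} (h2 : 2 * h ∈ L.lattice) (hn : h ∉ L.lattice) :
    4 * ℘[L] h ^ 3 - L.g₂ * ℘[L] h - L.g₃ = 0 := by
  rw [← L.derivWeierstrassP_sq h hn, deriv_half L h h2]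
  ring

private theorem cubic_ne (L : PeriodPair) {h₁ h₂ : ℂ} (H : IsHalf L h₁ h₂) :
    ℘[L] h₁ ≠ ℘[L] h₂ ∧ ℘[L] h₁ ≠ ℘[L] (h₁ + h₂) ∧ ℘[L] h₂ ≠ ℘[L] (h₁ + h₂) := by
  refine ⟨e_ne L H, (e_ne L H.rot).symm, ?_⟩
  have := (e_ne L H.symm.rot).symm
  rwa [add_comm h₂ h₁] at this

/-- Vieta for the cubic `4 X ^ 3 - g₂ X - g₃`. -/
private theorem cubic_vieta (L : PeriodPair) {h₁ h₂ : ℂ} (H : IsHalf L h₁ h₂) :
    ℘[L] (h₁ + h₂) = -℘[L] h₁ - ℘[L] h₂ ∧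
      L.g₂ = 4 * (℘[L] h₁ ^ 2 + ℘[L] h₁ * ℘[L] h₂ + ℘[L] h₂ ^ 2) ∧
      L.g₃ = -4 * ℘[L] h₁ * ℘[L] h₂ * (℘[L] h₁ + ℘[L] h₂) := by
  obtain ⟨n12, n13, n23⟩ := cubic_ne L H
  have r1 := cubic_root L H.two₁ H.not₁
  have r2 := cubic_root L H.two₂ H.not₂
  have r3 := cubic_root L (h := h₁ + h₂) (by
    rw [mul_add]
    exact add_mem H.two₁ H.two₂) H.not₃
  generalize ℘[L] h₁ = e1 at *
  generalize ℘[L] h₂ = e2 at *
  generalize ℘[L] (h₁ + h₂) = e3 at *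
  have h12 : 4 * (e1 ^ 2 + e1 * e2 + e2 ^ 2) = L.g₂ := by
    have h : (e1 - e2) * (4 * (e1 ^ 2 + e1 * e2 + e2 ^ 2) - L.g₂) = 0 := by
      linear_combination r1 - r2
    rcases mul_eq_zero.1 h with h | h
    · exact absurd (sub_eq_zero.1 h) n12
    · linear_combination h
  have h13 : 4 * (e1 ^ 2 + e1 * e3 + e3 ^ 2) = L.g₂ := by
    have h : (e1 - e3) * (4 * (e1 ^ 2 + e1 * e3 + e3 ^ 2) - L.g₂) = 0 := by
      linear_combination r1 - r3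
    rcases mul_eq_zero.1 h with h | h
    · exact absurd (sub_eq_zero.1 h) n13
    · linear_combination h
  have hs : e1 + e2 + e3 = 0 := by
    have h : (e2 - e3) * (e1 + e2 + e3) = 0 := by
      linear_combination (h12 - h13) / 4
    rcases mul_eq_zero.1 h with h | h
    · exact absurd (sub_eq_zero.1 h) n23
    · exact h
  refine ⟨by linear_combination hs, h12.symm, ?_⟩
  linear_combination -r1 + e1 * h12

theorem disc_eq (L : PeriodPair) {h₁ h₂ : ℂ} (H : IsHalf L h₁ h₂) :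
    disc L = 16 * ((℘[L] h₁ - ℘[L] h₂) * (℘[L] h₁ - ℘[L] (h₁ + h₂)) *
      (℘[L] h₂ - ℘[L] (h₁ + h₂))) ^ 2 := by
  obtain ⟨h3, hg2, hg3⟩ := cubic_vieta L H
  rw [disc, h3, hg2, hg3]
  ring

theorem deriv_sq_eq (L : PeriodPair) {h₁ h₂ : ℂ} (H : IsHalf L h₁ h₂) (z : ℂ)
    (hz : z ∉ L.lattice) :
    ℘'[L] z ^ 2 =
      4 * ((℘[L] z - ℘[L] h₁) * (℘[L] z - ℘[L] h₂) * (℘[L] z - ℘[L] (h₁ + h₂))) := by
  obtain ⟨h3, hg2, hg3⟩ := cubic_vieta L H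
  rw [L.derivWeierstrassP_sq z hz, h3, hg2, hg3]
  ring

theorem disc_ne_zero (L : PeriodPair) : disc L ≠ 0 := by
  have H := isHalf_std L
  obtain ⟨n12, n13, n23⟩ := cubic_ne L H
  rw [disc_eq L H]
  exact mul_ne_zero (by norm_num) (pow_ne_zero _ (mul_ne_zero
    (mul_ne_zero (sub_ne_zero.2 n12) (sub_ne_zero.2 n13)) (sub_ne_zero.2 n23)))

end Fermat.Agent.S15.Dict.PF
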