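import Mathlib

/-!
# S15 / Dict / PF : the product formula for the discriminant of an isogenous lattice

Definitions only.  `L` is a Mathlib `PeriodPair`.
-/

set_option autoImplicit false

namespace Fermat.Agent.S15.Dict.PF

open PeriodPair

/-- The discriminant `g₂³ - 27 g₃²` of a lattice. -/
noncomputable def disc (L : PeriodPair) : ℂ := L.g₂ ^ 3 - 27 * L.g₃ ^ 2

/-- `h₁, h₂, h₁ + h₂` represent the three nonzero classes of `(1/2)L / L`. -/
structure IsHalf (L : PeriodPair) (h₁ h₂ : ℂ) : Prop where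
  two₁ : 2 * h₁ ∈ L.lattice
  two₂ : 2 * h₂ ∈ L.lattice
  not₁ : h₁ ∉ L.lattice
  not₂ : h₂ ∉ L.lattice
  not₃ : h₁ + h₂ ∉ L.lattice

/-- `L'` is the lattice generated by `L` and a point `z₀` of exact order `N` modulo `L`. -/
structure IsCyc (L L' : PeriodPair) (N : ℕ) (z₀ : ℂ) : Prop where
  mem_iff : ∀ z : ℂ, z ∈ L'.lattice ↔ ∃ k : ℤ, z - k * z₀ ∈ L.lattice
  ord : ∀ k : ℤ, (k : ℂ) * z₀ ∈ L.lattice ↔ (N : ℤ) ∣ k

/-- The product of the translates of `℘'` by the multiples of `z₀`. -/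
noncomputable def G (L : PeriodPair) (N : ℕ) (z₀ z : ℂ) : ℂ :=
  ∏ k ∈ Finset.range N, ℘'[L] (z + k * z₀)

/-- The product of the three translates of `℘'` by the half periods. -/
noncomputable def T3 (L : PeriodPair) (h₁ h₂ z : ℂ) : ℂ :=
  ℘'[L] (z + h₁) * ℘'[L] (z + h₂) * ℘'[L] (z + (h₁ + h₂))

end Fermat.Agent.S15.Dict.PF
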