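import Fermat.Agent.S15.Dict.PF.Trans

/-!
# S15 / Dict / PF : the values of ℘ at the half periods are distinct
-/

set_option autoImplicit false

namespace Fermat.Agent.S15.Dict.PF

open PeriodPair Filter Topology

theorem e_ne (L : PeriodPair) {h₁ h₂ : ℂ} (H : IsHalf L h₁ h₂) : ℘[L] h₁ ≠ ℘[L] h₂ := by
  intro heq
  let g : ℂ → ℂ := fun z => ℘[L] z - ℘[L] h₁
  have hgm : ∀ x, MeromorphicAt g x := fun x =>
    (L.meromorphic_weierstrassP x).sub (MeromorphicAt.const _ x)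
  -- the order of `g` at `0` is finite
  have h0 : meromorphicOrderAt g 0 ≠ ⊤ := by
    intro htop
    rw [meromorphicOrderAt_eq_top_iff] at htop
    have h1 : ℘[L] =ᶠ[𝓝[≠] 0] fun _ => ℘[L] h₁ := by
      filter_upwards [htop] with z hz
      exact sub_eq_zero.mp hz
    have h2 := meromorphicOrderAt_congr h1
    rw [L.order_weierstrassP 0 (zero_mem _)] at h2
    have h3 : 0 ≤ meromorphicOrderAt (fun _ : ℂ => ℘[L] h₁) 0 :=
      analyticAt_const.meromorphicOrderAt_nonneg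
    rw [← h2] at h3
    exact absurd h3 (by decide)
  -- hence everywhere
  have hall : ∀ x, meromorphicOrderAt g x ≠ ⊤ := fun x =>
    MeromorphicOn.meromorphicOrderAt_ne_top_of_isPreconnected (U := Set.univ)
      (fun z _ => hgm z) isPreconnected_univ (Set.mem_univ 0) (Set.mem_univ x) h0
  have e1 : ∀ᶠ z in 𝓝[≠] (0 : ℂ), g z ≠ 0 :=
    (meromorphicOrderAt_ne_top_iff_eventually_ne_zero (hgm 0)).mp h0
  have hgm' : MeromorphicAt (g ∘ (· + h₁)) 0 :=
    meromorphicAt_comp_add_const_iff_meromorphicAt.mpr (hgm _)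
  have e2 : ∀ᶠ z in 𝓝[≠] (0 : ℂ), (g ∘ (· + h₁)) z ≠ 0 :=
    (meromorphicOrderAt_ne_top_iff_eventually_ne_zero hgm').mp
      (by rw [meromorphicOrderAt_comp_add_const_eq_meromorphicOrderAt]; exact hall _)
  have e3 : ∀ᶠ z in 𝓝[≠] (0 : ℂ), z ∉ L.lattice := by
    have := L.compl_lattice_sdiff_singleton_mem_nhds 0
    filter_upwards [mem_nhdsWithin_of_mem_nhds this, self_mem_nhdsWithin] with z hz hz0 hzL
    exact hz ⟨hzL, hz0⟩
  have e4 : ∀ᶠ z in 𝓝[≠] (0 : ℂ), z + h₁ ∉ L.lattice := by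
    have h1 : ((L.lattice : Set ℂ))ᶜ ∈ 𝓝 ((0 : ℂ) + h₁) := by
      rw [zero_add]
      exact L.isClosed_lattice.isOpen_compl.mem_nhds H.not₁
    have h2 : ContinuousAt (fun z : ℂ => z + h₁) 0 := by fun_prop
    exact mem_nhdsWithin_of_mem_nhds (h2 h1)
  obtain ⟨z, hz1, hz2, hz3, hz4⟩ := (e1.and (e2.and (e3.and e4))).exists
  have := half_translate L H z hz3 hz4
  rw [← heq, sub_self, mul_zero] at this
  rcases mul_eq_zero.mp this with h | h
  · exact hz2 h
  · exact hz1 h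

end Fermat.Agent.S15.Dict.PF
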