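import Fermat.Agent.S15.Dict.PF.Cubic

/-!
# S15 / Dict / PF : the product of the four translates of ℘' by the half periods
-/

set_option autoImplicit false

namespace Fermat.Agent.S15.Dict.PF

open PeriodPair Filter Topology

private theorem four_hasDerivAt (L : PeriodPair) {z : ℂ} (hz : z ∉ L.lattice) :
    HasDerivAt ℘[L] (℘'[L] z) z := by
  have h1 : DifferentiableAt ℂ ℘[L] z := (L.analyticOnNhd_weierstrassP z hz).differentiableAt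
  have h2 := h1.hasDerivAt
  rwa [L.deriv_weierstrassP] at h2

theorem deriv_half_translate (L : PeriodPair) {h₁ h₂ : ℂ} (H : IsHalf L h₁ h₂) (z : ℂ)
    (hz : z ∉ L.lattice) (hz' : z + h₁ ∉ L.lattice) :
    ℘'[L] (z + h₁) * (℘[L] z - ℘[L] h₁) ^ 2 =
      - ((℘[L] (h₁ + h₂) - ℘[L] h₁) * (℘[L] h₂ - ℘[L] h₁)) * ℘'[L] z := by
  have hopen : IsOpen ((L.lattice : Set ℂ)ᶜ) := L.isClosed_lattice.isOpen_compl
  have ev1 : ∀ᶠ w in 𝓝 z, w ∉ L.lattice := hopen.mem_nhds hz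
  have ev2 : ∀ᶠ w in 𝓝 z, w + h₁ ∉ L.lattice :=
    (continuous_add_const h₁).continuousAt.eventually (hopen.mem_nhds hz')
  have hconst : (fun w => (℘[L] (w + h₁) - ℘[L] h₁) * (℘[L] w - ℘[L] h₁)) =ᶠ[𝓝 z]
      fun _ => (℘[L] (h₁ + h₂) - ℘[L] h₁) * (℘[L] h₂ - ℘[L] h₁) := by
    filter_upwards [ev1, ev2] with w hw hw'
    exact half_translate L H w hw hw'
  have d1 : HasDerivAt (fun w => ℘[L] (w + h₁) - ℘[L] h₁) (℘'[L] (z + h₁)) z :=
    ((four_hasDerivAt L hz').comp_add_const z h₁).sub_const _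
  have d2 : HasDerivAt (fun w => ℘[L] w - ℘[L] h₁) (℘'[L] z) z :=
    (four_hasDerivAt L hz).sub_const _
  have d3 := d1.mul d2
  have d4 : HasDerivAt (fun w => (℘[L] (w + h₁) - ℘[L] h₁) * (℘[L] w - ℘[L] h₁)) 0 z :=
    (hasDerivAt_const z _).congr_of_eventuallyEq hconst
  have e := d3.unique d4
  have ht := half_translate L H z hz hz'
  linear_combination (℘[L] z - ℘[L] h₁) * e - ℘'[L] z * ht

private theorem four_alg (D0 D1 D2 D3 P e1 e2 e3 : ℂ) (h1 : P - e1 ≠ 0) (h2 : P - e2 ≠ 0)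
    (h3 : P - e3 ≠ 0)
    (E1 : D1 * (P - e1) ^ 2 = -((e3 - e1) * (e2 - e1)) * D0)
    (E2 : D2 * (P - e2) ^ 2 = -((e3 - e2) * (e1 - e2)) * D0)
    (E3 : D3 * (P - e3) ^ 2 = -((e2 - e3) * (e1 - e3)) * D0)
    (S : D0 ^ 2 = 4 * ((P - e1) * (P - e2) * (P - e3))) :
    D0 * (D1 * D2 * D3) = 16 * ((e1 - e2) * (e1 - e3) * (e2 - e3)) ^ 2 := by
  have hne : ((P - e1) * (P - e2) * (P - e3)) ^ 2 ≠ 0 :=
    pow_ne_zero _ (mul_ne_zero (mul_ne_zero h1 h2) h3)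
  apply mul_right_cancel₀ hne
  calc D0 * (D1 * D2 * D3) * ((P - e1) * (P - e2) * (P - e3)) ^ 2
      = D0 * (D1 * (P - e1) ^ 2) * (D2 * (P - e2) ^ 2) * (D3 * (P - e3) ^ 2) := by ring
    _ = D0 * (-((e3 - e1) * (e2 - e1)) * D0) * (-((e3 - e2) * (e1 - e2)) * D0)
          * (-((e2 - e3) * (e1 - e3)) * D0) := by rw [E1, E2, E3]
    _ = ((e1 - e2) * (e1 - e3) * (e2 - e3)) ^ 2 * (D0 ^ 2) ^ 2 := by ring
    _ = ((e1 - e2) * (e1 - e3) * (e2 - e3)) ^ 2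
          * (4 * ((P - e1) * (P - e2) * (P - e3))) ^ 2 := by rw [S]
    _ = 16 * ((e1 - e2) * (e1 - e3) * (e2 - e3)) ^ 2
          * ((P - e1) * (P - e2) * (P - e3)) ^ 2 := by ring

theorem four_prod (L : PeriodPair) {h₁ h₂ : ℂ} (H : IsHalf L h₁ h₂) (u : ℂ)
    (hu : 2 * u ∉ L.lattice) :
    ℘'[L] u * T3 L h₁ h₂ u = disc L := by
  have hu0 : u ∉ L.lattice := notMem_of_two_mul L hu
  have hu1 : u + h₁ ∉ L.lattice := add_notMem_of_two_mul L hu H.two₁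
  have hu2 : u + h₂ ∉ L.lattice := add_notMem_of_two_mul L hu H.two₂
  have hu3 : u + (h₁ + h₂) ∉ L.lattice := add_notMem_of_two_mul L hu H.rot.two₁
  have c21 : ℘[L] (h₂ + h₁) = ℘[L] (h₁ + h₂) := by rw [add_comm]
  have c3 : ℘[L] (h₁ + h₂ + h₁) = ℘[L] h₂ := by
    have h := L.weierstrassP_add_coe h₂ ⟨2 * h₁, H.two₁⟩
    have e : h₁ + h₂ + h₁ = h₂ + 2 * h₁ := by ring
    rw [e]; exact h
  have n12 : ℘[L] h₁ ≠ ℘[L] h₂ := e_ne L H
  have n31 : ℘[L] (h₁ + h₂) ≠ ℘[L] h₁ := e_ne L H.rot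
  have n32 : ℘[L] (h₁ + h₂) ≠ ℘[L] h₂ := by
    have h := e_ne L H.symm.rot
    rwa [c21] at h
  have E1 := deriv_half_translate L H u hu0 hu1
  have E2 := deriv_half_translate L H.symm u hu0 hu2
  have E3 := deriv_half_translate L H.rot u hu0 hu3
  rw [c21] at E2
  rw [c3] at E3
  have T1 := half_translate L H u hu0 hu1
  have T2 := half_translate L H.symm u hu0 hu2
  have T3' := half_translate L H.rot u hu0 hu3
  rw [c21] at T2
  rw [c3] at T3'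
  have a1 : ℘[L] u - ℘[L] h₁ ≠ 0 := by
    intro h0
    rw [h0, mul_zero] at T1
    exact mul_ne_zero (sub_ne_zero.2 n31) (sub_ne_zero.2 n12.symm) T1.symm
  have a2 : ℘[L] u - ℘[L] h₂ ≠ 0 := by
    intro h0
    rw [h0, mul_zero] at T2
    exact mul_ne_zero (sub_ne_zero.2 n32) (sub_ne_zero.2 n12) T2.symm
  have a3 : ℘[L] u - ℘[L] (h₁ + h₂) ≠ 0 := by
    intro h0
    rw [h0, mul_zero] at T3'
    exact mul_ne_zero (sub_ne_zero.2 n32.symm) (sub_ne_zero.2 n31.symm) T3'.symm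
  rw [disc_eq L H, T3]
  exact four_alg _ _ _ _ _ _ _ _ a1 a2 a3 E1 E2 E3 (deriv_sq_eq L H u hu0)

end Fermat.Agent.S15.Dict.PF
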