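import Fermat.Agent.S15.Dict.PF.Four

/-!
# S15 / Dict / PF : products over the four translates
-/

set_option autoImplicit false

namespace Fermat.Agent.S15.Dict.PF

open PeriodPair Filter Topology

private theorem fourProd_per (L : PeriodPair) (w w' : ℂ) (h : w' - w ∈ L.lattice) :
    ℘'[L] w' = ℘'[L] w := by
  have h1 := L.derivWeierstrassP_add_coe w ⟨w' - w, h⟩
  simpa using h1

theorem T3_four (L : PeriodPair) {h₁ h₂ : ℂ} (H : IsHalf L h₁ h₂) (z : ℂ)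
    (hz : 2 * z ∉ L.lattice) :
    T3 L h₁ h₂ z * T3 L h₁ h₂ (z + h₁) * T3 L h₁ h₂ (z + h₂) * T3 L h₁ h₂ (z + (h₁ + h₂)) =
      disc L ^ 3 := by
  have h12 : 2 * h₁ + 2 * h₂ ∈ L.lattice := add_mem H.two₁ H.two₂
  have e1 : ℘'[L] (z + h₁ + h₁) = ℘'[L] z :=
    fourProd_per L _ _ (by convert H.two₁ using 1; ring)
  have e2 : ℘'[L] (z + h₁ + h₂) = ℘'[L] (z + (h₁ + h₂)) := by rw [add_assoc]
  have e3 : ℘'[L] (z + h₁ + (h₁ + h₂)) = ℘'[L] (z + h₂) :=
    fourProd_per L _ _ (by convert H.two₁ using 1; ring)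
  have e4 : ℘'[L] (z + h₂ + h₁) = ℘'[L] (z + (h₁ + h₂)) := by
    congr 1
    ring
  have e5 : ℘'[L] (z + h₂ + h₂) = ℘'[L] z :=
    fourProd_per L _ _ (by convert H.two₂ using 1; ring)
  have e6 : ℘'[L] (z + h₂ + (h₁ + h₂)) = ℘'[L] (z + h₁) :=
    fourProd_per L _ _ (by convert H.two₂ using 1; ring)
  have e7 : ℘'[L] (z + (h₁ + h₂) + h₁) = ℘'[L] (z + h₂) :=
    fourProd_per L _ _ (by convert H.two₁ using 1; ring)
  have e8 : ℘'[L] (z + (h₁ + h₂) + h₂) = ℘'[L] (z + h₁) :=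
    fourProd_per L _ _ (by convert H.two₂ using 1; ring)
  have e9 : ℘'[L] (z + (h₁ + h₂) + (h₁ + h₂)) = ℘'[L] z :=
    fourProd_per L _ _ (by convert h12 using 1; ring)
  have h4 := four_prod L H z hz
  rw [← h4]
  simp only [T3, e1, e2, e3, e4, e5, e6, e7, e8, e9]
  ring

theorem G_four {L L' : PeriodPair} {N : ℕ} {z₀ h₁ h₂ : ℂ}
    (C : IsCyc L L' N z₀) (H : IsHalf L h₁ h₂) (z : ℂ) (hz : 2 * z ∉ L'.lattice) :
    G L N z₀ z * G L N z₀ (z + h₁) * G L N z₀ (z + h₂) * G L N z₀ (z + (h₁ + h₂)) =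
      disc L ^ N := by
  simp only [G, ← Finset.prod_mul_distrib]
  have key : ∀ k ∈ Finset.range N,
      ℘'[L] (z + k * z₀) * ℘'[L] (z + h₁ + k * z₀) * ℘'[L] (z + h₂ + k * z₀) *
        ℘'[L] (z + (h₁ + h₂) + k * z₀) = disc L := by
    intro k _
    have hu : 2 * (z + k * z₀) ∉ L.lattice := by
      intro h
      apply hz
      have h1 : 2 * (z + k * z₀) ∈ L'.lattice := C.le h
      have h2 : ((2 * k : ℤ) : ℂ) * z₀ ∈ L'.lattice := C.mul_mem (2 * k)
      have h3 := sub_mem h1 h2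
      convert h3 using 1
      push_cast
      ring
    rw [← four_prod L H (z + k * z₀) hu, T3]
    have a1 : z + h₁ + k * z₀ = z + k * z₀ + h₁ := by ring
    have a2 : z + h₂ + k * z₀ = z + k * z₀ + h₂ := by ring
    have a3 : z + (h₁ + h₂) + k * z₀ = z + k * z₀ + (h₁ + h₂) := by ring
    rw [a1, a2, a3]
    ring
  rw [Finset.prod_congr rfl key, Finset.prod_const, Finset.card_range]

end Fermat.Agent.S15.Dict.PF
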