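import Fermat.Agent.S15.Dict.PF.Defs

/-!
# S15 / Dict / PF : Liouville for periodic meromorphic functions
-/

set_option autoImplicit false

namespace Fermat.Agent.S15.Dict.PF

open PeriodPair Filter Topology

/-- A meromorphic function, periodic with respect to a lattice, all of whose orders are
nonnegative, is constant (at all points where it is continuous). -/
theorem liouville (L : PeriodPair) (f : ℂ → ℂ) (hm : Meromorphic f)
    (hper : ∀ z : ℂ, ∀ l ∈ L.lattice, f (z + l) = f z)
    (hord : ∀ x, 0 ≤ meromorphicOrderAt f x) :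
    ∃ c : ℂ, ∀ z, ContinuousAt f z → f z = c := by
  have hmU : MeromorphicOn f Set.univ := meromorphicOn_univ.2 hm
  set g : ℂ → ℂ := toMeromorphicNFOn f Set.univ with hg
  have hgf : ∀ x, g =ᶠ[𝓝[≠] x] f := fun x =>
    hmU.toMeromorphicNFOn_eq_self_on_nhdsNE (Set.mem_univ x)
  have hgan : ∀ x, AnalyticAt ℂ g x := by
    intro x
    have h1 : MeromorphicNFAt g x := meromorphicNFOn_toMeromorphicNFOn f Set.univ (Set.mem_univ x)
    rw [← h1.meromorphicOrderAt_nonneg_iff_analyticAt,
      meromorphicOrderAt_toMeromorphicNFOn hmU (Set.mem_univ x)]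
    exact hord x
  have hgd : Differentiable ℂ g := fun x => (hgan x).differentiableAt
  have hgc : Continuous g := hgd.continuous
  have hgper : ∀ z w, w ∈ L.lattice → g (z + w) = g z := by
    intro z l hl
    have ht : Tendsto (fun w => w + l) (𝓝[≠] z) (𝓝[≠] (z + l)) := by
      apply tendsto_nhdsWithin_of_tendsto_nhds_of_eventually_within
      · exact ((continuous_add_const l).tendsto z).mono_left nhdsWithin_le_nhds
      · filter_upwards [self_mem_nhdsWithin] with w hw
        simpa using hw
    have h1 : (fun w => g (w + l)) =ᶠ[𝓝[≠] z] fun w => f (w + l) := (hgf (z + l)).comp_tendsto ht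
    have h2 : (fun w => g (w + l)) =ᶠ[𝓝[≠] z] g := by
      refine h1.trans (EventuallyEq.trans ?_ (hgf z).symm)
      exact Eventually.of_forall fun w => hper w l hl
    have h3 : ContinuousAt (fun w => g (w + l)) z :=
      (hgc.comp (continuous_add_const l)).continuousAt
    exact ((h3.eventuallyEq_nhds_iff_eventuallyEq_nhdsNE hgc.continuousAt).1 h2).eq_of_nhds
  refine ⟨g 0, fun z hz => ?_⟩
  have h1 : f z = g z :=
    ((hz.eventuallyEq_nhds_iff_eventuallyEq_nhdsNE hgc.continuousAt).1 (hgf z).symm).eq_of_nhds
  rw [h1]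
  exact hgd.apply_eq_apply_of_bounded
    (IsZLattice.isCompact_range_of_periodic L.lattice _ hgc hgper).isBounded z 0

end Fermat.Agent.S15.Dict.PF
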