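import Fermat.Agent.S15.Dict.PF.Defs

/-!
# S15 / Dict / PF : lower bounds for the orders of translates of ℘ and ℘'
-/

set_option autoImplicit false

namespace Fermat.Agent.S15.Dict.PF

open PeriodPair Filter Topology

theorem deriv_half (L : PeriodPair) (h : ℂ) (h2 : 2 * h ∈ L.lattice) : ℘'[L] h = 0 := by
  have h1 : ℘'[L] (h - ((⟨2 * h, h2⟩ : L.lattice) : ℂ)) = ℘'[L] h :=
    L.derivWeierstrassP_sub_coe h ⟨2 * h, h2⟩
  have h3 : h - 2 * h = -h := by ring
  simp only [h3, derivWeierstrassP_neg] at h1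
  exact CharZero.eq_neg_self_iff.mp h1.symm

/-- translation -/
private theorem order_translate (f : ℂ → ℂ) (a x : ℂ) :
    meromorphicOrderAt (fun z => f (z + a)) x = meromorphicOrderAt f (x + a) :=
  meromorphicOrderAt_comp_add_const_eq_meromorphicOrderAt (f := f) (c := a) (x := x)

/-- vanishing of the first derivatives bounds the order from below -/
private theorem natCast_le_order {f : ℂ → ℂ} {x : ℂ} (hf : AnalyticAt ℂ f x) (n : ℕ)
    (h : ∀ i < n, iteratedDeriv i f x = 0) : (n : WithTop ℤ) ≤ meromorphicOrderAt f x := by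
  rw [hf.meromorphicOrderAt_eq]
  have h1 := (natCast_le_analyticOrderAt_iff_iteratedDeriv_eq_zero hf).mpr h
  generalize analyticOrderAt f x = m at h1
  cases m with
  | top => exact le_top
  | coe m =>
    have h2 : n ≤ m := by exact_mod_cast h1
    have h3 : ((m : ℕ∞).map (fun k : ℕ => (k : ℤ))) = ((m : ℤ) : WithTop ℤ) := rfl
    rw [h3]
    exact_mod_cast h2

private theorem order_deriv_lattice (L : PeriodPair) (l : ℂ) (h : l ∈ L.lattice) :
    meromorphicOrderAt ℘'[L] l = ((-3 : ℤ) : WithTop ℤ) := by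
  have h1 : meromorphicOrderAt ℘[L] l = ((-2 : ℤ) : WithTop ℤ) := by
    rw [L.order_weierstrassP l h]
    rfl
  have h2 := meromorphicOrderAt_deriv_eq_sub_one (𝕜 := ℂ) (n := -2) (by norm_num) h1
  rw [L.deriv_weierstrassP] at h2
  rw [h2]
  norm_num

theorem order_deriv_ge (L : PeriodPair) (a x : ℂ) :
    (-3 : WithTop ℤ) ≤ meromorphicOrderAt (fun z => ℘'[L] (z + a)) x := by
  rw [order_translate]
  by_cases h : x + a ∈ L.lattice
  · rw [order_deriv_lattice L _ h]
    exact le_of_eq rfl
  · refine le_trans ?_ (L.analyticOnNhd_derivWeierstrassP _ h).meromorphicOrderAt_nonneg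
    have : ((-3 : ℤ) : WithTop ℤ) ≤ ((0 : ℤ) : WithTop ℤ) :=
      WithTop.coe_le_coe.mpr (by norm_num)
    exact this

theorem order_deriv_nonneg (L : PeriodPair) (a x : ℂ) (h : x + a ∉ L.lattice) :
    0 ≤ meromorphicOrderAt (fun z => ℘'[L] (z + a)) x := by
  rw [order_translate]
  exact (L.analyticOnNhd_derivWeierstrassP _ h).meromorphicOrderAt_nonneg

theorem order_deriv_pos (L : PeriodPair) (a x : ℂ) (h : x + a ∉ L.lattice)
    (h2 : 2 * (x + a) ∈ L.lattice) :
    1 ≤ meromorphicOrderAt (fun z => ℘'[L] (z + a)) x := by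
  rw [order_translate]
  have h1 := natCast_le_order (L.analyticOnNhd_derivWeierstrassP _ h) 1 (by
    intro i hi
    obtain rfl : i = 0 := by omega
    rw [iteratedDeriv_zero]
    exact deriv_half L _ h2)
  exact_mod_cast h1

theorem order_P_ge (L : PeriodPair) (a e x : ℂ) :
    (-2 : WithTop ℤ) ≤ meromorphicOrderAt (fun z => ℘[L] (z + a) - e) x := by
  rw [order_translate (fun z => ℘[L] z - e)]
  have h0 : ((-2 : ℤ) : WithTop ℤ) ≤ ((0 : ℤ) : WithTop ℤ) :=
    WithTop.coe_le_coe.mpr (by norm_num)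
  by_cases h : x + a ∈ L.lattice
  · have h1 := meromorphicOrderAt_add (L.meromorphic_weierstrassP (x + a))
      (analyticAt_const (v := -e) (𝕜 := ℂ) (x := x + a)).meromorphicAt
    have h2 : (℘[L] + fun _ => -e) = fun z => ℘[L] z - e := by
      funext z
      simp [sub_eq_add_neg]
    rw [h2, L.order_weierstrassP _ h] at h1
    refine le_trans (le_min le_rfl ?_) h1
    exact le_trans h0 (analyticAt_const (v := -e) (𝕜 := ℂ) (x := x + a)).meromorphicOrderAt_nonneg
  · have h1 : AnalyticAt ℂ (fun z => ℘[L] z - e) (x + a) :=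
      (L.analyticOnNhd_weierstrassP _ h).sub analyticAt_const
    exact le_trans h0 h1.meromorphicOrderAt_nonneg

theorem order_P_nonneg (L : PeriodPair) (a e x : ℂ) (h : x + a ∉ L.lattice) :
    0 ≤ meromorphicOrderAt (fun z => ℘[L] (z + a) - e) x := by
  rw [order_translate (fun z => ℘[L] z - e)]
  have h1 : AnalyticAt ℂ (fun z => ℘[L] z - e) (x + a) :=
    (L.analyticOnNhd_weierstrassP _ h).sub analyticAt_const
  exact h1.meromorphicOrderAt_nonneg

theorem order_P_two (L : PeriodPair) (a x : ℂ) (h : x + a ∉ L.lattice)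
    (h2 : 2 * (x + a) ∈ L.lattice) :
    2 ≤ meromorphicOrderAt (fun z => ℘[L] (z + a) - ℘[L] (x + a)) x := by
  rw [order_translate (fun z => ℘[L] z - ℘[L] (x + a))]
  have hP : AnalyticAt ℂ ℘[L] (x + a) := L.analyticOnNhd_weierstrassP _ h
  have h1 : AnalyticAt ℂ (fun z => ℘[L] z - ℘[L] (x + a)) (x + a) := hP.sub analyticAt_const
  have h3 := natCast_le_order h1 2 (by
    intro i hi
    have : i = 0 ∨ i = 1 := by omega
    rcases this with rfl | rfl
    · rw [iteratedDeriv_zero]
      exact sub_self _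
    · rw [iteratedDeriv_one, deriv_sub_const, L.deriv_weierstrassP]
      exact deriv_half L _ h2)
  exact_mod_cast h3

end Fermat.Agent.S15.Dict.PF
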