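import Fermat.Agent.S15.Dict.PF.LV
import Fermat.Agent.S15.Dict.PF.Ord
import Fermat.Agent.S15.Dict.PF.Half

/-!
# S15 / Dict / PF : translation of ℘ by a half period
-/

set_option autoImplicit false

namespace Fermat.Agent.S15.Dict.PF

open PeriodPair Filter Topology

private theorem trans_meromorphicAt (L : PeriodPair) (a e x : ℂ) :
    MeromorphicAt (fun z => ℘[L] (z + a) - e) x := by
  have h1 : MeromorphicAt (fun z => ℘[L] (z + a)) x :=
    (L.meromorphic_weierstrassP (x + a)).comp_analyticAt (g := fun z => z + a) (by fun_prop)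
  exact h1.sub (MeromorphicAt.const e x)

private theorem trans_continuousAt (L : PeriodPair) (a e x : ℂ) (h : x + a ∉ L.lattice) :
    ContinuousAt (fun z => ℘[L] (z + a) - e) x := by
  have h1 : ContinuousAt ℘[L] (x + a) := (L.analyticOnNhd_weierstrassP (x + a) h).continuousAt
  have h2 : ContinuousAt (fun z => ℘[L] (z + a)) x :=
    ContinuousAt.comp (f := fun z : ℂ => z + a) (g := ℘[L]) h1 (by fun_prop)
  exact h2.sub continuousAt_const

private theorem trans_add_mem (L : PeriodPair) (z l : ℂ) (hl : l ∈ L.lattice) :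
    ℘[L] (z + l) = ℘[L] z :=
  L.weierstrassP_add_coe z ⟨l, hl⟩

theorem half_translate (L : PeriodPair) {h₁ h₂ : ℂ} (H : IsHalf L h₁ h₂) (z : ℂ)
    (hz : z ∉ L.lattice) (hz' : z + h₁ ∉ L.lattice) :
    (℘[L] (z + h₁) - ℘[L] h₁) * (℘[L] z - ℘[L] h₁) =
      (℘[L] (h₁ + h₂) - ℘[L] h₁) * (℘[L] h₂ - ℘[L] h₁) := by
  set f : ℂ → ℂ := fun w => (℘[L] (w + h₁) - ℘[L] h₁) * (℘[L] (w + 0) - ℘[L] h₁) with hf
  have hm : Meromorphic f := fun x =>
    (trans_meromorphicAt L h₁ (℘[L] h₁) x).mul (trans_meromorphicAt L 0 (℘[L] h₁) x)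
  have hper : ∀ w : ℂ, ∀ l ∈ L.lattice, f (w + l) = f w := by
    intro w l hl
    simp only [hf]
    rw [show w + l + h₁ = w + h₁ + l by ring, show w + l + 0 = w + 0 + l by ring,
      trans_add_mem L _ l hl, trans_add_mem L _ l hl]
  have hord : ∀ x, 0 ≤ meromorphicOrderAt f x := by
    intro x
    have hmul : meromorphicOrderAt f x =
        meromorphicOrderAt (fun w => ℘[L] (w + h₁) - ℘[L] h₁) x
          + meromorphicOrderAt (fun w => ℘[L] (w + 0) - ℘[L] h₁) x :=
      meromorphicOrderAt_mul (trans_meromorphicAt L h₁ (℘[L] h₁) x)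
        (trans_meromorphicAt L 0 (℘[L] h₁) x)
    rw [hmul]
    by_cases hx : x ∈ L.lattice
    · -- pole of the second factor, double zero of the first
      have h1 : x + h₁ ∉ L.lattice := fun h => H.not₁ (by
        have := L.lattice.sub_mem h hx
        rwa [add_sub_cancel_left] at this)
      have h2 : 2 * (x + h₁) ∈ L.lattice := by
        have := L.lattice.add_mem (L.lattice.add_mem hx hx) H.two₁
        rwa [show x + x + 2 * h₁ = 2 * (x + h₁) by ring] at this
      have e1 := order_P_two L h₁ x h1 h2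
      rw [show x + h₁ = h₁ + x by ring, trans_add_mem L h₁ x hx] at e1
      have e2 := order_P_ge L 0 (℘[L] h₁) x
      calc (0 : WithTop ℤ) = 2 + (-2) := by norm_num
        _ ≤ _ := add_le_add e1 e2
    · by_cases hx' : x + h₁ ∈ L.lattice
      · have h2 : 2 * (x + 0) ∈ L.lattice := by
          have := L.lattice.sub_mem (L.lattice.add_mem hx' hx') H.two₁
          rwa [show x + h₁ + (x + h₁) - 2 * h₁ = 2 * (x + 0) by ring] at this
        have e2 := order_P_two L 0 x (by rwa [add_zero]) h2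
        have e3 : ℘[L] (x + 0) = ℘[L] h₁ := by
          rw [show x + 0 = -h₁ + (x + h₁) by ring, trans_add_mem L _ _ hx', L.weierstrassP_neg]
        rw [e3] at e2
        have e1 := order_P_ge L h₁ (℘[L] h₁) x
        calc (0 : WithTop ℤ) = (-2) + 2 := by norm_num
          _ ≤ _ := add_le_add e1 e2
      · exact add_nonneg (order_P_nonneg L h₁ _ x hx')
          (order_P_nonneg L 0 _ x (by rwa [add_zero]))
  obtain ⟨c, hc⟩ := liouville L f hm hper hord
  have hcont : ∀ w, w ∉ L.lattice → w + h₁ ∉ L.lattice → ContinuousAt f w := fun w hw hw' =>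
    (trans_continuousAt L h₁ _ w hw').mul (trans_continuousAt L 0 _ w (by rwa [add_zero]))
  have e1 := hc z (hcont z hz hz')
  have e2 := hc h₂ (hcont h₂ H.not₂ (by rw [add_comm]; exact H.not₃))
  simp only [hf, add_zero] at e1 e2
  rw [e1, ← e2, add_comm h₂ h₁]

end Fermat.Agent.S15.Dict.PF
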